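/-
M1/S13, package (In-p)(i): the frame at the prime `q = p` (in fact at any odd prime `q`), built on
the S05 valuation library `Lib/Frey` alone.

For a valuation subring `A` of `ℚ̄` over an odd prime `q`, the kernel of reduction
`T = V ∩ E₁` inside `V = E[p](ℚ̄)` (Frey curve, frozen model) is a subgroup, stable under the
decomposition group of `A`, and the inertia group of `A` acts trivially on `V / T`:
`σ x − x ∈ T` for all `x ∈ V`.

The proof is the S05 chain (Frey model → Legendre model `Y² = X (X − δ) (X − ε)`; good reduction: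
difference lemma L1; multiplicative reduction: inertia-fixed point `P₀` of level `2m/p`, unsigned
level L3, L1) without its last step (absence of `p`-torsion in `E₁`), which fails at `q = p`.
-/
import Mathlib
import Fermat.Agent.Lib.Frey.FqFinal
import Fermat.Agent.Lib.Frey.OrdInertia

set_option autoImplicit false

namespace Fermat.Agent.Lib.GC

open WeierstrassCurve WeierstrassCurve.Affine WeierstrassCurve.Affine.Point
open Fermat.Agent.Lib.Frey

/-! ### Part 1: the abstract inertia theorem without the torsion step -/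

section abstract

variable {K : Type*} [Field K] [DecidableEq K] {v : AddValuation K (WithTop ℚ)}
  {W : WeierstrassCurve K} {σ : K →+* K} (hW : W.map σ = W)

/-- If `x − j • P₀ ∈ E₀` for a `σ`-fixed point `P₀`, and (L1) and the subgroup half of (L2) hold,
then `σ x − x ∈ E₁`. -/
theorem gch_sub_mem_E1_of_sub_inE0 (hσv : ∀ a, v (σ a) = v a)
    (hσI : ∀ a, 0 ≤ v a → 0 < v (σ a - a)) (L1 : fab_HypL1 v W)
    (L2 : ∀ P Q : W.toAffine.Point, fl_InE1 v P → fl_InE1 v Q → fl_InE1 v (P - Q))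
    (hns : ∀ a b : K, W.toAffine.Nonsingular a b → v a = 0 →
      0 ≤ v b ∧ (v b = 0 ∨ v (3 * a ^ 2 + 2 * W.a₂ * a + W.a₄) = 0))
    {x P₀ : W.toAffine.Point} (hP₀ : fab_sigma σ W hW P₀ = P₀) (j : ℤ)
    (hj : fl_InE0 v (x - j • P₀)) : fl_InE1 v (fab_sigma σ W hW x - x) := by
  set s := fab_sigma σ W hW with hs
  have hD : s x - x = s (x - j • P₀) - (x - j • P₀) := by
    rw [map_sub, map_zsmul, hP₀]; abel
  rw [hD]
  rcases hj with h0 | ⟨a, b, h, hab, ha⟩
  · rw [h0, _root_.map_zero, sub_zero]; left; rfl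
  · rw [hab]
    rcases lt_or_eq_of_le ha with ha' | ha'
    · have h1 : fl_InE1 v (Point.some a b h) := Or.inr ⟨a, b, h, rfl, ha'⟩
      exact L2 _ _ (fab_sigma_mem_E1 hW hσv h1) h1
    · obtain ⟨hb, hns'⟩ := hns a b h ha'
      exact fab_sigma_sub_mem_E1_of_integral hW hσv hσI L1 h ha'.ge hb hns'

/-- "`σ` moves every `n`-torsion point of `W` inside `E₁`". -/
def gch_Moves (v : AddValuation K (WithTop ℚ)) (σ : K →+* K) (n : ℕ) (W : WeierstrassCurve K)
    (hW : W.map σ = W) : Prop :=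
  ∀ x : W.toAffine.Point, n • x = 0 → fl_InE1 v (fab_sigma σ W hW x - x)

/-- "`E₁` is closed under subtraction on `W`". -/
def gch_E1Sub (v : AddValuation K (WithTop ℚ)) (W : WeierstrassCurve K) : Prop :=
  ∀ P Q : W.toAffine.Point, fl_InE1 v P → fl_InE1 v Q → fl_InE1 v (P - Q)

end abstract

/-! ### Part 2: the Legendre model -/

section legendre

variable {K : Type*} [Field K] [DecidableEq K] (v : AddValuation K (WithTop ℚ))

theorem gch_E1Sub_leg {δ ε : K} (hδ : 0 ≤ v δ) (hε : 0 ≤ v ε) : gch_E1Sub v (fl_curve δ ε) :=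
  fun _ _ hP hQ => fab_L2_sub_leg v hδ hε hP hQ

/-- Good reduction: every point is moved inside `E₁`. -/
theorem gch_moves_good (σ : K →+* K) (hσv : ∀ a, v (σ a) = v a)
    (hσI : ∀ a, 0 ≤ v a → 0 < v (σ a - a)) (δ ε : K) (hσδ : σ δ = δ) (hσε : σ ε = ε)
    (hδ : v δ = 0) (hε : v ε = 0) (hδε : v (δ - ε) = 0) (h2 : v (2 : K) = 0) (n : ℕ) :
    gch_Moves v σ n (fl_curve δ ε) (fab_fl_curve_map σ hσδ hσε) := by
  intro x _
  have hW := fab_fl_curve_map σ hσδ hσε
  rcases x with _ | ⟨X, Y, h⟩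
  · left
    change fab_sigma σ (fl_curve δ ε) hW 0 - 0 = 0
    rw [_root_.map_zero, sub_zero]
  · rcases lt_or_ge (v X) 0 with hX | hX
    · have h1 : fl_InE1 v (Point.some X Y h) := Or.inr ⟨X, Y, h, rfl, hX⟩
      exact gch_E1Sub_leg v hδ.ge hε.ge _ _ (fab_sigma_mem_E1 hW hσv h1) h1
    · obtain ⟨hb, hns⟩ := fab_ns_good v hδ hε hδε h hX
      exact fab_sigma_sub_mem_E1_of_integral hW hσv hσI (fab_L1_leg v hδ.ge hε.ge h2) h hX hb hns

/-- Multiplicative reduction: every `p`-torsion point is moved inside `E₁`, given a `σ`-fixed point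
of level `2m/p`. -/
theorem gch_moves_mult (σ : K →+* K) (hσv : ∀ a, v (σ a) = v a)
    (hσI : ∀ a, 0 ≤ v a → 0 < v (σ a - a)) (δ ε : K) (hσδ : σ δ = δ) (hσε : σ ε = ε)
    (m : ℚ) (hm : 0 < m) (hδ : v δ = (m : ℚ)) (hε : v ε = 0) (h2 : v (2 : K) = 0) (p : ℕ)
    (hp : 2 < p) (X₀ Y₀ : K) (h₀ : (fl_curve δ ε).toAffine.Nonsingular X₀ Y₀) (hX₀ : σ X₀ = X₀)
    (hY₀ : σ Y₀ = Y₀) (hvX₀ : v X₀ = ((2 * m / p : ℚ) : WithTop ℚ)) :
    gch_Moves v σ p (fl_curve δ ε) (fab_fl_curve_map σ hσδ hσε) := by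
  intro x hx
  have hW := fab_fl_curve_map σ hσδ hσε
  have hδpos : 0 < v δ := by rw [hδ]; exact_mod_cast hm
  obtain ⟨j, hj⟩ := fu_exists_sub_inE0 v δ ε m hδ hm hε h2 p hp x (Point.some X₀ Y₀ h₀) hx
    X₀ Y₀ h₀ rfl hvX₀
  have hP₀ : fab_sigma σ (fl_curve δ ε) hW (Point.some X₀ Y₀ h₀) = Point.some X₀ Y₀ h₀ :=
    fab_sigma_eq_of_coords hW hX₀ hY₀
  exact gch_sub_mem_E1_of_sub_inE0 hW hσv hσI (fab_L1_leg v hδpos.le hε.ge h2)
    (gch_E1Sub_leg v hδpos.le hε.ge) (fun a b hab ha => fab_ns_mult v hδpos hε hab ha) hP₀ j hj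

end legendre

/-! ### Part 3: transfer along a change of variables -/

section transfer

variable {K : Type*} [Field K] (v : AddValuation K (WithTop ℚ))

theorem gch_inE1_some {W : WeierstrassCurve K} {X Y : K} (h : W.toAffine.Nonsingular X Y) :
    fl_InE1 v (Point.some X Y h) ↔ v X < 0 := by
  constructor
  · rintro (h0 | ⟨x, y, hxy, hP, hx⟩)
    · exact absurd h0 (by intro h4; cases h4)
    · rw [Point.some.injEq] at hP
      rw [hP.1]; exact hx
  · intro hX
    exact Or.inr ⟨X, Y, h, rfl, hX⟩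

theorem gch_inE1_zero {W : WeierstrassCurve K} : fl_InE1 v (0 : W.toAffine.Point) := Or.inl rfl

theorem gch_v_fvc_X_neg_iff (C : VariableChange K) (hu : v (C.u : K) = 0) (hr : 0 ≤ v C.r)
    (x : K) : v (fvc_X C x) < 0 ↔ v x < 0 := by
  unfold fvc_X
  have h1 : v ((C.u : K) ^ 2 * x) = v x := by
    rw [v.map_mul, v.map_pow, hu, smul_zero, zero_add]
  constructor
  · intro h
    by_contra hx
    rw [not_lt] at hx
    have : 0 ≤ v ((C.u : K) ^ 2 * x + C.r) := v.map_le_add (by rw [h1]; exact hx) hr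
    exact absurd h (not_lt.mpr this)
  · intro h
    rw [v.map_add_eq_of_lt_left (by rw [h1]; exact lt_of_lt_of_le h hr), h1]
    exact h

variable [DecidableEq K]

/-- `E₁` is preserved by a variable change with unit `u` and integral `r`. -/
theorem gch_inE1_pointEquiv (W : WeierstrassCurve K) (C : VariableChange K)
    (hu : v (C.u : K) = 0) (hr : 0 ≤ v C.r) (Q : (C • W).toAffine.Point) :
    fl_InE1 v (fvc_pointEquiv W C Q) ↔ fl_InE1 v Q := by
  rcases Q with _ | ⟨x, y, h⟩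
  · exact ⟨fun _ => Or.inl rfl, fun _ => Or.inl rfl⟩
  · rw [fvc_pointEquiv_some, gch_inE1_some, gch_inE1_some, gch_v_fvc_X_neg_iff v C hu hr]

omit [DecidableEq K] in
theorem gch_map_smul_eq (σ : K →+* K) (W : WeierstrassCurve K) (C : VariableChange K)
    (hW : W.map σ = W) (hu : σ (C.u : K) = C.u) (hr : σ C.r = C.r) (hs : σ C.s = C.s)
    (ht : σ C.t = C.t) : (C • W).map σ = C • W := by
  have hC : C.map σ = C := by
    ext
    · simpa [VariableChange.map] using hu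
    · simpa [VariableChange.map] using hr
    · simpa [VariableChange.map] using hs
    · simpa [VariableChange.map] using ht
  rw [← map_variableChange, hC, hW]

/-- The change of variables is equivariant for a ring endomorphism fixing its parameters. -/
theorem gch_sigma_pointEquiv (σ : K →+* K) (W : WeierstrassCurve K) (C : VariableChange K)
    (hW : W.map σ = W) (hW' : (C • W).map σ = C • W) (hu : σ (C.u : K) = C.u) (hr : σ C.r = C.r)
    (hs : σ C.s = C.s) (ht : σ C.t = C.t) (Q : (C • W).toAffine.Point) :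
    fvc_pointEquiv W C (fab_sigma σ (C • W) hW' Q) = fab_sigma σ W hW (fvc_pointEquiv W C Q) := by
  rcases Q with _ | ⟨x, y, h⟩
  · change fvc_pointEquiv W C (fab_sigma σ (C • W) hW' 0) = fab_sigma σ W hW (fvc_pointEquiv W C 0)
    rw [_root_.map_zero, _root_.map_zero, _root_.map_zero]
  · rw [fab_sigma_some, fvc_pointEquiv_some, fvc_pointEquiv_some, fab_sigma_some]
    apply fvc_some_congr
    · unfold fvc_X
      rw [map_add, map_mul, map_pow, hu, hr]
    · unfold fvc_Y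
      rw [map_add, map_add, map_mul, map_mul, map_mul, map_pow, map_pow, hu, hs, ht]

theorem gch_Moves_transfer (σ : K →+* K) (n : ℕ) (W : WeierstrassCurve K) (C : VariableChange K)
    (hW : W.map σ = W) (hW' : (C • W).map σ = C • W) (hu : σ (C.u : K) = C.u) (hr : σ C.r = C.r)
    (hs : σ C.s = C.s) (ht : σ C.t = C.t) (hvu : v (C.u : K) = 0) (hvr : 0 ≤ v C.r)
    (H : gch_Moves v σ n (C • W) hW') : gch_Moves v σ n W hW := by
  intro x hx
  set e := fvc_pointEquiv W C with he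
  have h1 : n • (e.symm x) = 0 := by rw [← map_nsmul, hx, _root_.map_zero]
  have h2 := H (e.symm x) h1
  rw [← gch_inE1_pointEquiv v W C hvu hvr, map_sub, ← he,
    gch_sigma_pointEquiv σ W C hW hW' hu hr hs ht, ← he, e.apply_symm_apply] at h2
  exact h2

theorem gch_E1Sub_transfer (W : WeierstrassCurve K) (C : VariableChange K)
    (hvu : v (C.u : K) = 0) (hvr : 0 ≤ v C.r) (H : gch_E1Sub v (C • W)) : gch_E1Sub v W := by
  intro P Q hP hQ
  set e := fvc_pointEquiv W C with he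
  have h1 : fl_InE1 v (e.symm P) := by
    rw [← gch_inE1_pointEquiv v W C hvu hvr, ← he, e.apply_symm_apply]; exact hP
  have h2 : fl_InE1 v (e.symm Q) := by
    rw [← gch_inE1_pointEquiv v W C hvu hvr, ← he, e.apply_symm_apply]; exact hQ
  have h3 := H _ _ h1 h2
  rw [← gch_inE1_pointEquiv v W C hvu hvr, map_sub, ← he, e.apply_symm_apply,
    e.apply_symm_apply] at h3
  exact h3

end transfer

/-! ### Part 4: the Frey curve over a valued algebraically closed field -/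

section frey

variable {K : Type} [Field K] [DecidableEq K] [IsAlgClosed K] [CharZero K]

omit [IsAlgClosed K] [CharZero K] in
theorem gch_Moves_of_eq {v : AddValuation K (WithTop ℚ)} {σ : K →+* K} {n : ℕ}
    {W W' : WeierstrassCurve K} (h : W = W') (hW : W.map σ = W) (hW' : W'.map σ = W')
    (H : gch_Moves v σ n W' hW') : gch_Moves v σ n W hW := by
  subst h; exact H

omit [IsAlgClosed K] [CharZero K] in
theorem gch_E1Sub_of_eq {v : AddValuation K (WithTop ℚ)} {W W' : WeierstrassCurve K} (h : W = W')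
    (H : gch_E1Sub v W') : gch_E1Sub v W := by
  subst h; exact H

/-- The multiplicative case in abstract form: `δ = s t^p`, `s = ± 1`, `v t > 0`. -/
theorem gch_mult_case (v : AddValuation K (WithTop ℚ)) (σ : K ≃+* K)
    (hσv : ∀ a : K, v (σ a) = v a) (hσm : ∀ a : K, 0 ≤ v a → 0 < v (σ a - a))
    (h2 : v 2 = 0) {p : ℕ} (hp : 3 ≤ p) (s t ε : K) (hs : s = 1 ∨ s = -1) (ht : σ t = t)
    (hε : σ ε = ε) (ht0 : t ≠ 0) (htpos : 0 < v t) (hvε : v ε = 0)
    (hW : (fl_curve (s * t ^ p) ε).map (σ : K →+* K) = fl_curve (s * t ^ p) ε) :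
    gch_Moves v (σ : K →+* K) p (fl_curve (s * t ^ p) ε) hW := by
  obtain ⟨m, X₀, Y₀, hm, hvδ, hns, hX₀, hY₀, hvX₀⟩ :=
    fq_exists_P0 v σ hσm h2 t s ε hs ht hε ht0 htpos hvε p hp
  have hσs : σ s = s := by
    rcases hs with rfl | rfl
    · exact map_one σ
    · rw [map_neg, map_one]
  have hσδ : (σ : K →+* K) (s * t ^ p) = s * t ^ p := by
    simp only [RingHom.coe_coe, map_mul, map_pow, hσs, ht]
  exact gch_moves_mult v (σ : K →+* K) (fun a => by simpa using hσv a)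
    (fun a ha => by simpa using hσm a ha) (s * t ^ p) ε hσδ (by simpa using hε) m hm hvδ hvε h2 p
    (by omega) X₀ Y₀ hns (by simpa using hX₀) (by simpa using hY₀) hvX₀

/-- On the Legendre model `Y² = X (X − a^p) (X + b^p)` of the Frey curve, an automorphism
preserving `v` and acting trivially on the residue field (`v` over an odd prime `q`) moves every
`p`-torsion point inside `E₁`. -/
theorem gch_legendre_moves (v : AddValuation K (WithTop ℚ)) (σ : K ≃+* K)
    (hσv : ∀ a : K, v (σ a) = v a) (hσm : ∀ a : K, 0 ≤ v a → 0 < v (σ a - a))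
    (hint : ∀ z : ℤ, 0 ≤ v (z : K)) {q : ℕ} (hq : q.Prime) (hvq : 0 < v (q : K))
    (hq2 : q ≠ 2) (P : FreyPackage)
    (hW : (fl_curve ((P.a : K) ^ P.p) (-((P.b : K) ^ P.p))).map (σ : K →+* K) =
      fl_curve ((P.a : K) ^ P.p) (-((P.b : K) ^ P.p))) :
    gch_Moves v (σ : K →+* K) P.p (fl_curve ((P.a : K) ^ P.p) (-((P.b : K) ^ P.p))) hW := by
  have h2 : v (2 : K) = 0 := fq_v_two v hq hint hvq hq2
  have hp3 : 3 ≤ P.p := by have := P.hp5; omega
  have hσz : ∀ z : ℤ, σ (z : K) = z := fun z => map_intCast σ z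
  have hσ' : ∀ a, v ((σ : K →+* K) a) = v a := fun a => by simpa using hσv a
  have hσm' : ∀ a, 0 ≤ v a → 0 < v ((σ : K →+* K) a - a) := fun a ha => by simpa using hσm a ha
  have hFLT : (P.a : K) ^ P.p + (P.b : K) ^ P.p = (P.c : K) ^ P.p := by
    exact_mod_cast congrArg (fun z : ℤ => (z : K)) P.hFLT
  have hunit : ∀ z : ℤ, ¬ (q : ℤ) ∣ z → v ((z : K) ^ P.p) = 0 := by
    intro z hz
    rw [AddValuation.map_pow, fq_v_int_of_not_dvd v hq hint hvq hz, smul_zero]
  have hpos : ∀ z : ℤ, (q : ℤ) ∣ z → 0 < v (z : K) := fun z hz =>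
    fq_v_int_pos_of_dvd v hint hvq hz
  have hcast0 : ∀ z : ℤ, z ≠ 0 → (z : K) ≠ 0 := fun z hz => by exact_mod_cast hz
  rcases fq_cases P hq with ⟨ha, hb, hc⟩ | ⟨ha, hb, hc⟩ | ⟨hb, ha, hc⟩ | ⟨hc, ha, hb⟩
  · -- good reduction
    exact gch_moves_good v (σ : K →+* K) hσ' hσm' _ _ (by simp [hσz]) (by simp [hσz])
      (hunit _ ha) (by rw [AddValuation.map_neg]; exact hunit _ hb)
      (by rw [sub_neg_eq_add, hFLT]; exact hunit _ hc) h2 P.p
  · -- q ∣ a
    have hW1 : (fl_curve (1 * (P.a : K) ^ P.p) (-((P.b : K) ^ P.p))).map (σ : K →+* K) =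
        fl_curve (1 * (P.a : K) ^ P.p) (-((P.b : K) ^ P.p)) := by rw [one_mul]; exact hW
    have := gch_mult_case v σ hσv hσm h2 hp3 1 (P.a : K) (-((P.b : K) ^ P.p))
      (Or.inl rfl) (hσz _) (by rw [map_neg, map_pow, hσz]) (hcast0 _ P.ha0) (hpos _ ha)
      (by rw [AddValuation.map_neg]; exact hunit _ hb) hW1
    exact gch_Moves_of_eq (by rw [one_mul]) hW hW1 this
  · -- q ∣ b
    have hW1 : (fl_curve (-1 * (P.b : K) ^ P.p) ((P.a : K) ^ P.p)).map (σ : K →+* K) =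
        fl_curve (-1 * (P.b : K) ^ P.p) ((P.a : K) ^ P.p) := by
      rw [neg_one_mul, ← fq_curve_comm]; exact hW
    have := gch_mult_case v σ hσv hσm h2 hp3 (-1) (P.b : K) ((P.a : K) ^ P.p)
      (Or.inr rfl) (hσz _) (by rw [map_pow, hσz]) (hcast0 _ P.hb0) (hpos _ hb) (hunit _ ha) hW1
    exact gch_Moves_of_eq (by rw [neg_one_mul, ← fq_curve_comm]) hW hW1 this
  · -- q ∣ c
    have hcurve : fq_transl ((P.a : K) ^ P.p) • fl_curve ((P.a : K) ^ P.p) (-((P.b : K) ^ P.p)) =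
        fl_curve (-1 * (P.c : K) ^ P.p) (-((P.a : K) ^ P.p)) := by
      rw [fq_transl_curve, fq_curve_comm, neg_one_mul]
      congr 1
      rw [← hFLT]; ring
    have hW1 : (fl_curve (-1 * (P.c : K) ^ P.p) (-((P.a : K) ^ P.p))).map (σ : K →+* K) =
        fl_curve (-1 * (P.c : K) ^ P.p) (-((P.a : K) ^ P.p)) :=
      fab_fl_curve_map _ (by simp [hσz]) (by simp [hσz])
    have := gch_mult_case v σ hσv hσm h2 hp3 (-1) (P.c : K) (-((P.a : K) ^ P.p))
      (Or.inr rfl) (hσz _) (by rw [map_neg, map_pow, hσz]) (hcast0 _ P.hc0) (hpos _ hc)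
      (by rw [AddValuation.map_neg]; exact hunit _ ha) hW1
    have hW2 : (fq_transl ((P.a : K) ^ P.p) •
        fl_curve ((P.a : K) ^ P.p) (-((P.b : K) ^ P.p))).map (σ : K →+* K) =
        fq_transl ((P.a : K) ^ P.p) • fl_curve ((P.a : K) ^ P.p) (-((P.b : K) ^ P.p)) := by
      rw [hcurve]; exact hW1
    refine gch_Moves_transfer v (σ : K →+* K) P.p _ (fq_transl ((P.a : K) ^ P.p)) hW hW2
      ?_ ?_ ?_ ?_ ?_ ?_ (gch_Moves_of_eq hcurve hW2 hW1 this)
    · rw [fq_transl_u, map_one]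
    · rw [fq_transl_r]; simp [hσz]
    · rw [fq_transl_s, _root_.map_zero]
    · rw [fq_transl_t, _root_.map_zero]
    · rw [fq_transl_u]; exact AddValuation.map_one v
    · rw [fq_transl_r, AddValuation.map_pow]
      exact nsmul_nonneg (hint _) _

end frey

/-! ### Part 5: the frozen vocabulary -/

section frozen

local notation "Q̄" => AlgebraicClosure ℚ

open scoped Pointwise

/-- The Frey curve over `ℚ̄` is fixed by every `ℚ`-automorphism. -/
theorem gch_frey_map (P : FreyPackage) (σ : Q̄ ≃ₐ[ℚ] Q̄) :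
    (P.freyCurve.baseChange Q̄).map ((σ : Q̄ ≃+* Q̄) : Q̄ →+* Q̄) = P.freyCurve.baseChange Q̄ := by
  unfold WeierstrassCurve.baseChange
  rw [WeierstrassCurve.map_map]
  congr 1
  ext r
  simp

/-- The frozen Galois action on points is `fab_sigma`. -/
theorem gch_smul_eq_sigma (P : FreyPackage) (σ : Q̄ ≃ₐ[ℚ] Q̄) (pt : (P.freyCurve⁄Q̄).Point) :
    σ • pt = fab_sigma ((σ : Q̄ ≃+* Q̄) : Q̄ →+* Q̄) (P.freyCurve.baseChange Q̄)
      (gch_frey_map P σ) pt := by
  rcases pt with _ | ⟨X, Y, h⟩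
  · rw [show (Point.zero : (P.freyCurve⁄Q̄).Point) = 0 from rfl, _root_.map_zero]
    rfl
  · rw [fab_sigma_some]
    change Affine.Point.map σ.toAlgHom (Affine.Point.some X Y h) = _
    rw [Affine.Point.map_some]
    exact fvc_some_congr rfl rfl _ _

/-- Membership in the kernel of reduction `T = V ∩ E₁` at `A`: the point is `0` or its
`X`-coordinate (frozen Frey model) is not in `A`. -/
def gch_InT (P : FreyPackage) (A : ValuationSubring Q̄)
    (x : Submodule.torsionBy ℤ (P.freyCurve⁄Q̄).Point P.p) : Prop :=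
  (x : (P.freyCurve⁄Q̄).Point) = 0 ∨
    ∃ (X Y : Q̄) (h : (P.freyCurve⁄Q̄).Nonsingular X Y),
      (x : (P.freyCurve⁄Q̄).Point) = Point.some X Y h ∧ X ∉ A

theorem gch_InT_iff (P : FreyPackage) (A : ValuationSubring Q̄) {q : ℕ} (hq : q.Prime)
    (hA : (q : Q̄) ∈ A.nonunits) (x : Submodule.torsionBy ℤ (P.freyCurve⁄Q̄).Point P.p) :
    gch_InT P A x ↔
      fl_InE1 (ford_vQ A hq hA) (W := P.freyCurve.baseChange Q̄) (x : (P.freyCurve⁄Q̄).Point) := by
  have key : ∀ X : Q̄, X ∉ A ↔ ford_vQ A hq hA X < 0 := fun X => by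
    rw [← ford_vQ_nonneg_iff hq hA, not_le]
  constructor
  · rintro (h0 | ⟨X, Y, h, hx, hX⟩)
    · exact Or.inl h0
    · exact Or.inr ⟨X, Y, h, hx, (key X).mp hX⟩
  · rintro (h0 | ⟨X, Y, h, hx, hX⟩)
    · exact Or.inl h0
    · exact Or.inr ⟨X, Y, h, hx, (key X).mpr hX⟩

/-- `E₁` is closed under subtraction on the frozen Frey model over `ℚ̄`. -/
theorem gch_frey_E1Sub (P : FreyPackage) {q : ℕ} (hq : q.Prime) (hq2 : q ≠ 2)
    (A : ValuationSubring Q̄) (hA : (q : Q̄) ∈ A.nonunits) :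
    gch_E1Sub (ford_vQ A hq hA) (P.freyCurve.baseChange Q̄) := by
  set v := ford_vQ A hq hA with hv
  have hint : ∀ z : ℤ, 0 ≤ v (z : Q̄) := ford_vQ_intCast_nonneg hq hA
  have hvq : 0 < v (q : Q̄) := by rw [hv, ford_vQ_q]; exact zero_lt_one
  have h2 : v (2 : Q̄) = 0 := fq_v_two v hq hint hvq hq2
  have h2ne : (2 : Q̄) ≠ 0 := two_ne_zero
  refine gch_E1Sub_transfer v _ (fq_vc h2ne) ?_ ?_ (gch_E1Sub_of_eq (fq_frey_curve P h2ne) ?_)
  · rw [fq_vc_u, AddValuation.map_inv, h2, _root_.neg_zero]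
  · rw [fq_vc_r, AddValuation.map_zero]; exact le_top
  · refine gch_E1Sub_leg v ?_ ?_
    · rw [AddValuation.map_pow]; exact nsmul_nonneg (hint _) _
    · rw [AddValuation.map_neg, AddValuation.map_pow]; exact nsmul_nonneg (hint _) _

/-- An automorphism in the inertia group of `A` moves every `p`-torsion point of the frozen Frey
model inside `E₁`. -/
theorem gch_frey_moves (P : FreyPackage) {q : ℕ} (hq : q.Prime) (hq2 : q ≠ 2)
    (A : ValuationSubring Q̄) (hA : (q : Q̄) ∈ A.nonunits) (σ : Q̄ ≃ₐ[ℚ] Q̄)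
    (hσ : σ ∈ A.inertiaSubgroupIn ℚ) :
    gch_Moves (ford_vQ A hq hA) ((σ : Q̄ ≃+* Q̄) : Q̄ →+* Q̄) P.p (P.freyCurve.baseChange Q̄)
      (gch_frey_map P σ) := by
  set v := ford_vQ A hq hA with hv
  have hint : ∀ z : ℤ, 0 ≤ v (z : Q̄) := ford_vQ_intCast_nonneg hq hA
  have hvq : 0 < v (q : Q̄) := by rw [hv, ford_vQ_q]; exact zero_lt_one
  have h2 : v (2 : Q̄) = 0 := fq_v_two v hq hint hvq hq2
  have h2ne : (2 : Q̄) ≠ 0 := two_ne_zero
  obtain ⟨hσv, hσm⟩ := ford_vQ_inertia hq hA σ hσ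
  have hWL : (fl_curve ((P.a : Q̄) ^ P.p) (-((P.b : Q̄) ^ P.p))).map
      ((σ : Q̄ ≃+* Q̄) : Q̄ →+* Q̄) = fl_curve ((P.a : Q̄) ^ P.p) (-((P.b : Q̄) ^ P.p)) :=
    fab_fl_curve_map _ (by simp) (by simp)
  have hL := gch_legendre_moves v (σ : Q̄ ≃+* Q̄) hσv hσm hint hq hvq hq2 P hWL
  have hW' : (fq_vc h2ne • P.freyCurve.baseChange Q̄).map ((σ : Q̄ ≃+* Q̄) : Q̄ →+* Q̄) =
      fq_vc h2ne • P.freyCurve.baseChange Q̄ := by
    rw [fq_frey_curve P h2ne]; exact hWL
  refine gch_Moves_transfer v _ P.p _ (fq_vc h2ne) (gch_frey_map P σ) hW' ?_ ?_ ?_ ?_ ?_ ?_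
    (gch_Moves_of_eq (fq_frey_curve P h2ne) hW' hWL hL)
  · rw [fq_vc_u, map_inv₀, map_ofNat]
  · rw [fq_vc_r, _root_.map_zero]
  · rw [fq_vc_s, map_neg, map_inv₀, map_ofNat]
  · rw [fq_vc_t, _root_.map_zero]
  · rw [fq_vc_u, AddValuation.map_inv, h2, _root_.neg_zero]
  · rw [fq_vc_r, AddValuation.map_zero]; exact le_top

theorem gch_InT_zero (P : FreyPackage) (A : ValuationSubring Q̄) : gch_InT P A 0 := Or.inl rfl

/-- (F1) `T` is closed under subtraction. -/
theorem gch_InT_sub (P : FreyPackage) {q : ℕ} (hq : q.Prime) (hq2 : q ≠ 2)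
    (A : ValuationSubring Q̄) (hA : A.LiesOverPrime q)
    {x y : Submodule.torsionBy ℤ (P.freyCurve⁄Q̄).Point P.p}
    (hx : gch_InT P A x) (hy : gch_InT P A y) : gch_InT P A (x - y) := by
  rw [gch_InT_iff P A hq hA] at hx hy ⊢
  rw [Submodule.coe_sub]
  exact gch_frey_E1Sub P hq hq2 A hA _ _ hx hy

/-- (F2) `T` is stable under the decomposition group. -/
theorem gch_InT_smul (P : FreyPackage) (A : ValuationSubring Q̄) (σ : Q̄ ≃ₐ[ℚ] Q̄)
    (hσ : σ ∈ A.decompositionSubgroup ℚ)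
    {x : Submodule.torsionBy ℤ (P.freyCurve⁄Q̄).Point P.p} (hx : gch_InT P A x) :
    gch_InT P A (σ • x) := by
  have h1 : ((σ • x : Submodule.torsionBy ℤ (P.freyCurve⁄Q̄).Point P.p) :
      (P.freyCurve⁄Q̄).Point) = σ • (x : (P.freyCurve⁄Q̄).Point) := rfl
  rcases hx with h0 | ⟨X, Y, h, hx, hX⟩
  · left
    rw [h1, h0]
    rfl
  · right
    rw [h1, hx, gch_smul_eq_sigma, fab_sigma_some]
    refine ⟨_, _, _, rfl, ?_⟩
    intro hmem
    apply hX
    have hinv : σ⁻¹ ∈ A.decompositionSubgroup ℚ := inv_mem hσ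
    have := ford_decomposition_mem A σ⁻¹ hinv _ hmem
    simpa using this

/-- (F3) The inertia group acts trivially on `V / T`. -/
theorem gch_inertia_sub_mem (P : FreyPackage) {q : ℕ} (hq : q.Prime) (hq2 : q ≠ 2)
    (A : ValuationSubring Q̄) (hA : A.LiesOverPrime q) (σ : Q̄ ≃ₐ[ℚ] Q̄)
    (hσ : σ ∈ A.inertiaSubgroupIn ℚ)
    (x : Submodule.torsionBy ℤ (P.freyCurve⁄Q̄).Point P.p) : gch_InT P A (σ • x - x) := by
  rw [gch_InT_iff P A hq hA, Submodule.coe_sub]
  have h1 : ((σ • x : Submodule.torsionBy ℤ (P.freyCurve⁄Q̄).Point P.p) :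
      (P.freyCurve⁄Q̄).Point) = σ • (x : (P.freyCurve⁄Q̄).Point) := rfl
  rw [h1, gch_smul_eq_sigma]
  have hn : P.p • (x : (P.freyCurve⁄Q̄).Point) = 0 := by
    have := (Submodule.mem_torsionBy_iff _ _).mp x.2
    rwa [natCast_zsmul] at this
  exact gch_frey_moves P hq hq2 A hA σ hσ _ hn

/-- The kernel of reduction `T = V ∩ E₁` at `A` (over an odd prime `q`) as a subgroup of `V`. -/
noncomputable def gch_Tgrp (P : FreyPackage) {q : ℕ} (hq : q.Prime) (hq2 : q ≠ 2)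
    (A : ValuationSubring Q̄) (hA : A.LiesOverPrime q) :
    AddSubgroup (Submodule.torsionBy ℤ (P.freyCurve⁄Q̄).Point P.p) where
  carrier := {x | gch_InT P A x}
  zero_mem' := gch_InT_zero P A
  add_mem' := by
    intro a b ha hb
    have h : a + b = a - (0 - b) := by abel
    change gch_InT P A (a + b)
    rw [h]
    exact gch_InT_sub P hq hq2 A hA ha (gch_InT_sub P hq hq2 A hA (gch_InT_zero P A) hb)
  neg_mem' := by
    intro a ha
    have h : -a = 0 - a := by abel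
    change gch_InT P A (-a)
    rw [h]
    exact gch_InT_sub P hq hq2 A hA (gch_InT_zero P A) ha

/-- The kernel of reduction `T = V ∩ E₁` at `A` as an `𝔽_p`-subspace of `V`. -/
noncomputable def gch_T (P : FreyPackage) {q : ℕ} (hq : q.Prime) (hq2 : q ≠ 2)
    (A : ValuationSubring Q̄) (hA : A.LiesOverPrime q) :
    Submodule (ZMod P.p) (Submodule.torsionBy ℤ (P.freyCurve⁄Q̄).Point P.p) :=
  AddSubgroup.toZModSubmodule P.p (gch_Tgrp P hq hq2 A hA)

theorem gch_mem_T (P : FreyPackage) {q : ℕ} (hq : q.Prime) (hq2 : q ≠ 2)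
    (A : ValuationSubring Q̄) (hA : A.LiesOverPrime q)
    (x : Submodule.torsionBy ℤ (P.freyCurve⁄Q̄).Point P.p) :
    x ∈ gch_T P hq hq2 A hA ↔ gch_InT P A x := Iff.rfl

/-- (F2), submodule form. -/
theorem gch_T_decomposition (P : FreyPackage) {q : ℕ} (hq : q.Prime) (hq2 : q ≠ 2)
    (A : ValuationSubring Q̄) (hA : A.LiesOverPrime q) (σ : Q̄ ≃ₐ[ℚ] Q̄)
    (hσ : σ ∈ A.decompositionSubgroup ℚ) (x : Submodule.torsionBy ℤ (P.freyCurve⁄Q̄).Point P.p)
    (hx : x ∈ gch_T P hq hq2 A hA) : σ • x ∈ gch_T P hq hq2 A hA :=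
  gch_InT_smul P A σ hσ hx

/-- (F3), submodule form: the inertia group acts trivially on `V / T`. -/
theorem gch_T_inertia (P : FreyPackage) {q : ℕ} (hq : q.Prime) (hq2 : q ≠ 2)
    (A : ValuationSubring Q̄) (hA : A.LiesOverPrime q) (σ : Q̄ ≃ₐ[ℚ] Q̄)
    (hσ : σ ∈ A.inertiaSubgroupIn ℚ) (x : Submodule.torsionBy ℤ (P.freyCurve⁄Q̄).Point P.p) :
    σ • x - x ∈ gch_T P hq hq2 A hA :=
  gch_inertia_sub_mem P hq hq2 A hA σ hσ x

/-! ### (F4) dictionary with the Legendre model `Y² = X (X − a^p) (X + b^p)` -/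

/-- The isomorphism from the frozen Frey model to the Legendre model:
`(X, Y) ↦ (4 X, 8 Y + 4 X)`. -/
noncomputable def gch_toLeg (P : FreyPackage) :
    (P.freyCurve⁄Q̄).Point ≃+
      (fl_curve ((P.a : Q̄) ^ P.p) (-((P.b : Q̄) ^ P.p))).toAffine.Point :=
  (fvc_pointEquiv (P.freyCurve.baseChange Q̄) (fq_vc (two_ne_zero : (2 : Q̄) ≠ 0))).symm.trans
    (fab_congr (fq_frey_curve P two_ne_zero))

theorem gch_toLeg_symm_some (P : FreyPackage) {X Y : Q̄}
    (h : (fl_curve ((P.a : Q̄) ^ P.p) (-((P.b : Q̄) ^ P.p))).toAffine.Nonsingular X Y) :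
    ∃ h' : (P.freyCurve⁄Q̄).Nonsingular (X / 4) (Y / 8 - X / 8),
      (gch_toLeg P).symm (Point.some X Y h) = Point.some (X / 4) (Y / 8 - X / 8) h' := by
  have h2ne : (2 : Q̄) ≠ 0 := two_ne_zero
  have hC := fq_frey_curve P h2ne
  have h1 : (fq_vc h2ne • P.freyCurve.baseChange Q̄).toAffine.Nonsingular X Y := by
    rw [hC]; exact h
  have h2 : (gch_toLeg P).symm (Point.some X Y h) =
      fvc_pointEquiv (P.freyCurve.baseChange Q̄) (fq_vc h2ne) (Point.some X Y h1) := by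
    unfold gch_toLeg
    rw [AddEquiv.symm_trans_apply, AddEquiv.symm_symm]
    congr 1
    rw [AddEquiv.symm_apply_eq, fab_congr_some]
  rw [h2, fvc_pointEquiv_some]
  have hX : fvc_X (fq_vc h2ne) X = X / 4 := by
    unfold fvc_X; rw [fq_vc_u, fq_vc_r]; ring
  have hY : fvc_Y (fq_vc h2ne) X Y = Y / 8 - X / 8 := by
    unfold fvc_Y; rw [fq_vc_u, fq_vc_s, fq_vc_t]; ring
  have h3 := (fvc_nonsingular (P.freyCurve.baseChange Q̄) (fq_vc h2ne) X Y).mp h1
  refine ⟨by rw [← hX, ← hY]; exact h3, fvc_some_congr hX hY _ _⟩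

/-- `E₁` corresponds to `E₁` under `gch_toLeg` (any valuation with `v 2 = 0`). -/
theorem gch_inE1_toLeg (P : FreyPackage) (v : AddValuation Q̄ (WithTop ℚ)) (h2 : v (2 : Q̄) = 0)
    (pt : (P.freyCurve⁄Q̄).Point) :
    fl_InE1 v (gch_toLeg P pt) ↔ fl_InE1 v (W := P.freyCurve.baseChange Q̄) pt := by
  have h2ne : (2 : Q̄) ≠ 0 := two_ne_zero
  have hu : v ((fq_vc h2ne).u : Q̄) = 0 := by
    rw [fq_vc_u, AddValuation.map_inv, h2, _root_.neg_zero]
  have hr : 0 ≤ v (fq_vc h2ne).r := by rw [fq_vc_r, AddValuation.map_zero]; exact le_top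
  have key : ∀ (W' : WeierstrassCurve Q̄) (hW' : fq_vc h2ne • P.freyCurve.baseChange Q̄ = W')
      (Q : (fq_vc h2ne • P.freyCurve.baseChange Q̄).toAffine.Point),
      fl_InE1 v (fab_congr hW' Q) ↔ fl_InE1 v Q := by
    intro W' hW' Q
    subst hW'
    rfl
  unfold gch_toLeg
  rw [AddEquiv.trans_apply, key,
    ← gch_inE1_pointEquiv v (P.freyCurve.baseChange Q̄) (fq_vc h2ne) hu hr,
    AddEquiv.apply_symm_apply]

/-- (F4) `x ∈ T` iff the corresponding point of the Legendre model lies in `E₁`. -/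
theorem gch_InT_iff_toLeg (P : FreyPackage) {q : ℕ} (hq : q.Prime) (hq2 : q ≠ 2)
    (A : ValuationSubring Q̄) (hA : (q : Q̄) ∈ A.nonunits)
    (x : Submodule.torsionBy ℤ (P.freyCurve⁄Q̄).Point P.p) :
    gch_InT P A x ↔ fl_InE1 (ford_vQ A hq hA) (gch_toLeg P (x : (P.freyCurve⁄Q̄).Point)) := by
  have hint : ∀ z : ℤ, 0 ≤ ford_vQ A hq hA (z : Q̄) := ford_vQ_intCast_nonneg hq hA
  have hvq : 0 < ford_vQ A hq hA (q : Q̄) := by rw [ford_vQ_q]; exact zero_lt_one
  have h2 : ford_vQ A hq hA (2 : Q̄) = 0 := fq_v_two _ hq hint hvq hq2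
  rw [gch_inE1_toLeg P _ h2, gch_InT_iff P A hq hA]

end frozen

end Fermat.Agent.Lib.GC
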