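/-
Moonshot M1(d), global characters (helper9, prefix `gch_`), part 1: the TAME CHARACTER.

`B` a Dedekind domain with a faithful action of a finite group `G` whose invariants are `ℤ`, `P` a
nonzero prime of `B` over the rational prime `p` such that ALL of `G` is inertia at `P`
(`σ x - x ∈ P`).  If `p ∤ #G` then `#G ∣ p - 1`:
the map `θ : G → (B ⧸ P)ˣ`, `σ π ≡ θ(σ) π mod P²`, is an injective homomorphism and `B ⧸ P = F_p`.
-/
import Mathlib

set_option autoImplicit false
set_option linter.unusedSectionVars false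
set_option linter.style.haveILetI false

namespace Fermat.Agent.Lib.GC

section Unipotent

variable {B : Type*} [CommRing B] {G : Type*} [Group G] [MulSemiringAction G B]

/-- the ring endomorphism `x ↦ σ • x` -/
lemma gch_smul_mem_of_sub_mem {P : Ideal B} (σ : G) (hσ : ∀ x : B, σ • x - x ∈ P) {x : B}
    (hx : x ∈ P) : σ • x ∈ P := by
  have := P.add_mem (hσ x) hx
  rwa [sub_add_cancel] at this

/-- `σ` maps `P ^ k` into itself -/
lemma gch_smul_mem_pow {P : Ideal B} (σ : G) (hσ : ∀ x : B, σ • x - x ∈ P) (k : ℕ) {x : B}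
    (hx : x ∈ P ^ k) : σ • x ∈ P ^ k := by
  have h1 : (P ^ k).map (MulSemiringAction.toRingHom G B σ) ≤ P ^ k := by
    rw [Ideal.map_pow]
    apply Ideal.pow_right_mono
    rw [Ideal.map_le_iff_le_comap]
    intro y hy
    exact gch_smul_mem_of_sub_mem σ hσ hy
  exact h1 (Ideal.mem_map_of_mem _ hx)

/-- if `σ` is trivial modulo `P²`, it maps `P ^ k` to itself and is trivial on `P^k / P^(k+1)` -/
lemma gch_sub_mem_pow_succ {P : Ideal B} (σ : G) (hσ : ∀ x : B, σ • x - x ∈ P ^ 2) (k : ℕ) :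
    ∀ y ∈ P ^ k, σ • y - y ∈ P ^ (k + 1) := by
  have hσ1 : ∀ x : B, σ • x - x ∈ P := fun x => Ideal.pow_le_self two_ne_zero (hσ x)
  induction k with
  | zero =>
    intro y _
    rw [zero_add, pow_one]
    exact hσ1 y
  | succ k ih =>
    intro y hy
    rw [pow_succ] at hy
    refine Submodule.mul_induction_on hy ?_ ?_
    · intro a ha b hb
      have h1 : σ • (a * b) - a * b = (σ • a - a) * (σ • b) + a * (σ • b - b) := by
        rw [smul_mul']; ring
      rw [h1]
      refine Ideal.add_mem _ ?_ ?_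
      · rw [pow_succ]
        exact Ideal.mul_mem_mul (ih a ha) (gch_smul_mem_of_sub_mem σ hσ1 hb)
      · have h2 : P ^ (k + 1 + 1) = P ^ k * P ^ 2 := by rw [← pow_add]
        rw [h2]
        exact Ideal.mul_mem_mul ha (hσ b)
    · intro a b ha hb
      have h1 : σ • (a + b) - (a + b) = (σ • a - a) + (σ • b - b) := by
        rw [smul_add]; ring
      rw [h1]
      exact Ideal.add_mem _ ha hb

/-- telescoping: `σ^n x - x ≡ n (σ x - x) mod P^(k+1)` if `σ x - x ∈ P^k` for all `x` -/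
lemma gch_pow_smul_sub {P : Ideal B} (σ : G) (hσ : ∀ x : B, σ • x - x ∈ P ^ 2) (k : ℕ)
    (x : B) (hx : σ • x - x ∈ P ^ k) (n : ℕ) :
    (σ ^ n) • x - x - n * (σ • x - x) ∈ P ^ (k + 1) := by
  have hσ1 : ∀ x : B, σ • x - x ∈ P := fun x => Ideal.pow_le_self two_ne_zero (hσ x)
  induction n with
  | zero => simp
  | succ n ih =>
    have h1 : (σ ^ (n + 1)) • x - x - ((n + 1 : ℕ) : B) * (σ • x - x) =
        σ • ((σ ^ n) • x - x - n * (σ • x - x)) +
          n * (σ • (σ • x - x) - (σ • x - x)) := by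
      have hn : σ • (n : B) = n := map_natCast (MulSemiringAction.toRingHom G B σ) n
      rw [pow_succ', mul_smul]
      simp only [smul_sub, smul_mul', hn]
      push_cast
      ring
    rw [h1]
    refine Ideal.add_mem _ (gch_smul_mem_pow σ hσ1 _ ih) (Ideal.mul_mem_left _ _ ?_)
    exact gch_sub_mem_pow_succ σ hσ k _ hx

/-- an element which is a unit modulo the maximal ideal `P` can be cancelled modulo `P^(k+1)` on
elements of `P^k` -/
lemma gch_mem_pow_succ_of_mul_mem {P : Ideal B} [P.IsMaximal] {n : B} (hn : n ∉ P) (k : ℕ)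
    {y : B} (hy : y ∈ P ^ k) (hny : n * y ∈ P ^ (k + 1)) : y ∈ P ^ (k + 1) := by
  obtain ⟨m, hm⟩ := Ideal.Quotient.exists_inv (I := P) (a := Ideal.Quotient.mk P n)
    (by rwa [Ne, Ideal.Quotient.eq_zero_iff_mem])
  obtain ⟨m, rfl⟩ := Ideal.Quotient.mk_surjective m
  rw [← map_mul, ← map_one (Ideal.Quotient.mk P), Ideal.Quotient.eq] at hm
  have h1 : y = m * (n * y) - (n * m - 1) * y := by ring
  rw [h1]
  refine Ideal.sub_mem _ (Ideal.mul_mem_left _ _ hny) ?_
  rw [pow_succ']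
  exact Ideal.mul_mem_mul hm hy

/-- **unipotent automorphisms of order prime to the residue characteristic are trivial** -/
theorem gch_smul_eq_of_sq [IsDomain B] [IsNoetherianRing B] {P : Ideal B} [P.IsMaximal] (σ : G)
    (hσ : ∀ x : B, σ • x - x ∈ P ^ 2) {n : ℕ} (hn : (n : B) ∉ P) (hσn : σ ^ n = 1) (x : B) :
    σ • x = x := by
  have key : ∀ k : ℕ, σ • x - x ∈ P ^ k := by
    intro k
    induction k with
    | zero => simp
    | succ k ih =>
      have h1 := gch_pow_smul_sub σ hσ k x ih n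
      rw [hσn, one_smul, sub_self, zero_sub, neg_mem_iff] at h1
      exact gch_mem_pow_succ_of_mul_mem hn k ih h1
  have h2 : σ • x - x ∈ ⨅ k : ℕ, P ^ k := by
    rw [Ideal.mem_iInf]; exact key
  rw [Ideal.iInf_pow_eq_bot_of_isDomain P (Ideal.IsMaximal.ne_top inferInstance), Ideal.mem_bot,
    sub_eq_zero] at h2
  exact h2

end Unipotent

section Theta

variable {B : Type*} [CommRing B] [IsDedekindDomain B] {G : Type*} [Group G]
  [MulSemiringAction G B]
variable {P : Ideal B} [hPp : P.IsPrime]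

/-- `d` represents the tame character at `σ`: `σ π ≡ π d mod P²` -/
def gch_IsTheta (P : Ideal B) (π : B) (σ : G) (d : B) : Prop := σ • π - π * d ∈ P ^ 2

lemma gch_exists_isTheta (hP0 : P ≠ ⊥) (hI : ∀ (σ : G) (x : B), σ • x - x ∈ P) {π : B}
    (hπ : π ∈ P) (hπ2 : π ∉ P ^ 2) (σ : G) : ∃ d : B, gch_IsTheta P π σ d := by
  obtain ⟨d, e, he, hde⟩ := Ideal.exists_mul_add_mem_pow_succ hP0 (i := 1) π (σ • π)
    (by rwa [pow_one]) hπ2 (by rw [pow_one]; exact gch_smul_mem_of_sub_mem σ (hI σ) hπ)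
  refine ⟨d, ?_⟩
  unfold gch_IsTheta
  rw [← hde, add_sub_cancel_left]
  exact he

lemma gch_isTheta_unique (hP0 : P ≠ ⊥) {π : B} (hπ2 : π ∉ P ^ 2) {σ : G} {d d' : B}
    (h : gch_IsTheta P π σ d) (h' : gch_IsTheta P π σ d') : d - d' ∈ P := by
  apply Ideal.mem_prime_of_mul_mem_pow (i := 1) hP0 hπ2
  have h1 : π * (d - d') = (σ • π - π * d') - (σ • π - π * d) := by ring
  rw [h1]
  exact Ideal.sub_mem _ h' h

lemma gch_isTheta_one (π : B) : gch_IsTheta P π (1 : G) 1 := by
  unfold gch_IsTheta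
  rw [one_smul, mul_one, sub_self]
  exact Ideal.zero_mem _

lemma gch_isTheta_mul (hI : ∀ (σ : G) (x : B), σ • x - x ∈ P) {π : B} (hπ : π ∈ P)
    {σ τ : G} {d d' : B} (h : gch_IsTheta P π σ d) (h' : gch_IsTheta P π τ d') :
    gch_IsTheta P π (σ * τ) (d * d') := by
  unfold gch_IsTheta at h h' ⊢
  have h1 : (σ * τ) • π - π * (d * d') =
      π * d * (σ • d' - d') + (σ • π - π * d) * (σ • d') + σ • (τ • π - π * d') := by
    rw [mul_smul]
    simp only [smul_sub, smul_mul']
    ring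
  rw [h1]
  refine Ideal.add_mem _ (Ideal.add_mem _ ?_ (Ideal.mul_mem_right _ _ h))
    (gch_smul_mem_pow σ (hI σ) 2 h')
  have h2 : π * d * (σ • d' - d') = (π * d) * (σ • d' - d') := rfl
  rw [pow_two, h2]
  exact Ideal.mul_mem_mul (Ideal.mul_mem_right _ _ hπ) (hI σ d')

/-- if the tame character is trivial at `σ` and the residue field is prime, `σ` is trivial
modulo `P²` -/
lemma gch_sub_mem_sq_of_isTheta_one (hP0 : P ≠ ⊥) (hI : ∀ (σ : G) (x : B), σ • x - x ∈ P)
    (hres : ∀ x : B, ∃ n : ℤ, x - (n : B) ∈ P) {π : B} (hπ : π ∈ P) (hπ2 : π ∉ P ^ 2) {σ : G}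
    (h : gch_IsTheta P π σ 1) (x : B) : σ • x - x ∈ P ^ 2 := by
  unfold gch_IsTheta at h
  rw [mul_one] at h
  -- first on `P`
  have hP : ∀ y ∈ P, σ • y - y ∈ P ^ 2 := by
    intro y hy
    obtain ⟨d, e, he, hde⟩ := Ideal.exists_mul_add_mem_pow_succ hP0 (i := 1) π y
      (by rwa [pow_one]) hπ2 (by rwa [pow_one])
    have h1 : σ • y - y = (σ • π - π) * (σ • d) + π * (σ • d - d) + (σ • e - e) := by
      rw [← hde]
      simp only [smul_add, smul_mul']
      ring
    rw [h1]
    refine Ideal.add_mem _ (Ideal.add_mem _ (Ideal.mul_mem_right _ _ h) ?_)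
      (Ideal.sub_mem _ (gch_smul_mem_pow σ (hI σ) 2 he) he)
    rw [pow_two]
    exact Ideal.mul_mem_mul hπ (hI σ d)
  obtain ⟨n, hn⟩ := hres x
  have h2 : σ • x - x = σ • (x - (n : B)) - (x - (n : B)) := by
    have hn' : σ • (n : B) = n := map_intCast (MulSemiringAction.toRingHom G B σ) n
    rw [smul_sub, hn']
    ring
  rw [h2]
  exact hP _ hn

end Theta

section Main

variable {B : Type*} [CommRing B] [IsDedekindDomain B] {G : Type*} [Group G] [Finite G]
  [MulSemiringAction G B] [FaithfulSMul G B]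

/-- the residue field at a totally (tamely) ramified prime is the prime field -/
lemma gch_exists_int_sub_mem {P : Ideal B} [P.IsPrime]
    (hI : ∀ (σ : G) (x : B), σ • x - x ∈ P)
    (hinv : ∀ x : B, (∀ σ : G, σ • x = x) → ∃ n : ℤ, x = (n : B))
    {p : ℕ} (hpP : (p : B) ∈ P) (hcop : (Nat.card G).Coprime p) (x : B) :
    ∃ n : ℤ, x - (n : B) ∈ P := by
  classical
  haveI : Fintype G := Fintype.ofFinite G
  -- the trace of `x` is an integer
  obtain ⟨t, ht⟩ := hinv (∑ σ : G, σ • x) (by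
    intro τ
    rw [Finset.smul_sum]
    exact Fintype.sum_bijective (fun σ => τ * σ) (Group.mulLeft_bijective τ) _ _
      (fun σ => by rw [mul_smul]))
  -- `trace x ≡ #G x`
  have h1 : (∑ σ : G, σ • x) - (Nat.card G : B) * x ∈ P := by
    have h2 : (∑ σ : G, σ • x) - (Nat.card G : B) * x = ∑ σ : G, (σ • x - x) := by
      rw [Finset.sum_sub_distrib, Finset.sum_const, Finset.card_univ, Nat.card_eq_fintype_card,
        nsmul_eq_mul]
    rw [h2]
    exact Ideal.sum_mem _ (fun σ _ => hI σ x)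
  -- Bezout
  have hb : (Nat.card G : ℤ) * Nat.gcdA (Nat.card G) p + (p : ℤ) * Nat.gcdB (Nat.card G) p = 1 := by
    have := Nat.gcd_eq_gcd_ab (Nat.card G) p
    rw [hcop] at this
    exact_mod_cast this.symm
  refine ⟨Nat.gcdA (Nat.card G) p * t, ?_⟩
  have hb' : ((Nat.card G : ℤ) : B) * ((Nat.gcdA (Nat.card G) p : ℤ) : B) +
      ((p : ℤ) : B) * ((Nat.gcdB (Nat.card G) p : ℤ) : B) = 1 := by
    have := congrArg (Int.cast (R := B)) hb
    push_cast at this ⊢
    exact this
  have h3 : x - ((Nat.gcdA (Nat.card G) p * t : ℤ) : B) =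
      (p : B) * ((Nat.gcdB (Nat.card G) p : ℤ) : B) * x -
        ((Nat.gcdA (Nat.card G) p : ℤ) : B) * ((∑ σ : G, σ • x) - (Nat.card G : B) * x) := by
    rw [ht]
    push_cast at hb' ⊢
    linear_combination (-x) * hb'
  rw [h3]
  exact Ideal.sub_mem _ (Ideal.mul_mem_right _ _ (Ideal.mul_mem_right _ _ hpP))
    (Ideal.mul_mem_left _ _ h1)

/-- **the tame bound**: if all of `G` is inertia at `P ∣ p`, the invariants of `G` are `ℤ`, and
`p ∤ #G`, then `#G ∣ p - 1`. -/
theorem gch_card_dvd_of_tame {P : Ideal B} [hPp : P.IsPrime] (hP0 : P ≠ ⊥)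
    (hI : ∀ (σ : G) (x : B), σ • x - x ∈ P)
    (hinv : ∀ x : B, (∀ σ : G, σ • x = x) → ∃ n : ℤ, x = (n : B))
    {p : ℕ} (hp : p.Prime) (hpP : (p : B) ∈ P) (hcop : (Nat.card G).Coprime p) :
    Nat.card G ∣ p - 1 := by
  classical
  haveI hPmax : P.IsMaximal := Ideal.IsPrime.isMaximal hPp hP0
  have hres := gch_exists_int_sub_mem hI hinv hpP hcop
  -- a uniformiser
  obtain ⟨π, hπ, hπ2⟩ := SetLike.exists_of_lt (Ideal.pow_succ_lt_pow hP0 1)
  rw [pow_one] at hπ
  -- `#G` is a unit modulo `P`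
  have hnP : ((Nat.card G : ℕ) : B) ∉ P := by
    intro hmem
    have hb : (Nat.card G : ℤ) * Nat.gcdA (Nat.card G) p + (p : ℤ) * Nat.gcdB (Nat.card G) p = 1 := by
      have := Nat.gcd_eq_gcd_ab (Nat.card G) p
      rw [hcop] at this
      exact_mod_cast this.symm
    have hb' := congrArg (Int.cast (R := B)) hb
    push_cast at hb'
    apply hPmax.ne_top
    rw [Ideal.eq_top_iff_one, ← hb']
    exact Ideal.add_mem _ (Ideal.mul_mem_right _ _ hmem) (Ideal.mul_mem_right _ _ hpP)
  -- the tame character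
  choose d hd using gch_exists_isTheta hP0 hI hπ hπ2
  let θ : G →* B ⧸ P :=
    { toFun := fun σ => Ideal.Quotient.mk P (d σ)
      map_one' := by
        rw [← map_one (Ideal.Quotient.mk P), Ideal.Quotient.eq]
        exact gch_isTheta_unique hP0 hπ2 (hd 1) (gch_isTheta_one π)
      map_mul' := fun σ τ => by
        rw [← map_mul, Ideal.Quotient.eq]
        exact gch_isTheta_unique hP0 hπ2 (hd (σ * τ)) (gch_isTheta_mul hI hπ (hd σ) (hd τ)) }
  have hθinj : Function.Injective θ.toHomUnits := by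
    rw [injective_iff_map_eq_one]
    intro σ hσ
    have h1 : θ σ = 1 := by
      have := congrArg (fun u : (B ⧸ P)ˣ => (u : B ⧸ P)) hσ
      simpa using this
    have h2 : d σ - 1 ∈ P := by
      rw [← Ideal.Quotient.eq, map_one]; exact h1
    have h3 : gch_IsTheta P π σ 1 := by
      unfold gch_IsTheta
      have h4 : σ • π - π * 1 = (σ • π - π * d σ) + π * (d σ - 1) := by ring
      rw [h4, pow_two]
      refine Ideal.add_mem _ ?_ (Ideal.mul_mem_mul hπ h2)
      rw [← pow_two]; exact hd σ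
    have h5 := gch_sub_mem_sq_of_isTheta_one hP0 hI hres hπ hπ2 h3
    apply eq_of_smul_eq_smul (α := B)
    intro x
    rw [one_smul]
    exact gch_smul_eq_of_sq σ h5 hnP (pow_card_eq_one') x
  have h6 : Nat.card G ∣ Nat.card (B ⧸ P)ˣ := Subgroup.card_dvd_of_injective _ hθinj
  -- the residue field is `ZMod p`
  haveI : Fact p.Prime := ⟨hp⟩
  haveI : CharP (B ⧸ P) p := by
    haveI : Nontrivial (B ⧸ P) := Ideal.Quotient.nontrivial_iff.mpr hPmax.ne_top
    rw [CharP.charP_iff_prime_eq_zero hp]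
    rw [← map_natCast (Ideal.Quotient.mk P), Ideal.Quotient.eq_zero_iff_mem]
    exact hpP
  let f : ZMod p →+* B ⧸ P := ZMod.castHom (dvd_refl p) (B ⧸ P)
  have hfbij : Function.Bijective f := by
    refine ⟨f.injective, fun y => ?_⟩
    obtain ⟨x, rfl⟩ := Ideal.Quotient.mk_surjective y
    obtain ⟨n, hn⟩ := hres x
    refine ⟨(n : ZMod p), ?_⟩
    rw [map_intCast, ← map_intCast (Ideal.Quotient.mk P)]
    exact (Ideal.Quotient.eq.mpr hn).symm
  have h7 : Nat.card (B ⧸ P)ˣ = p - 1 := by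
    rw [← Nat.card_congr (Units.mapEquiv (RingEquiv.ofBijective f hfbij).toMulEquiv).toEquiv,
      Nat.card_eq_fintype_card, ZMod.card_units_eq_totient, Nat.totient_prime hp]
  rwa [h7] at h6

end Main

end Fermat.Agent.Lib.GC
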